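/-
S56, wall W2, leaf SC (helper71): transport of the smooth `H¹` along an additive equivariant
bijection between representations over (possibly) different coefficient rings.

Cocycles, coboundaries and level-constancy do not see the scalars: for `A : Rep k G`,
`A₀ : Rep k₀ G` and `f : A ≃+ A₀` with `f (g a) = g (f a)` we get `H1sm 𝓤 A ≃+ H1sm 𝓤 A₀`,
`[c] ↦ [f ∘ c]`, compatible with restriction along `r : H →* G`.
-/
import Fermat.Agent.S56.Local.Defs

set_option autoImplicit false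

namespace Fermat.Agent.S56

open Fermat.Agent.F4 ExtCitation groupCohomology

section Generic

variable {k k₀ G : Type} [CommRing k] [CommRing k₀] [Group G]
variable (𝓤 : Levels G) {A : Rep.{0} k G} {A₀ : Rep.{0} k₀ G}

/-- `f ∘ c` is a smooth cocycle when `c` is one and `f` is additive and equivariant. -/
theorem sc_comp_mem_Z1 (f : A.V →+ A₀.V) (hf : ∀ (g : G) (a : A.V), f (A.ρ g a) = A₀.ρ g (f a))
    {c : G → A.V} (hc : c ∈ Z1 𝓤 A) : (fun g => f (c g)) ∈ Z1 𝓤 A₀ := by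
  refine ⟨?_, IsLC₁.comp (f := c) hc.2 f⟩
  have hz := (mem_cocycles₁_iff c).1 hc.1
  refine (mem_cocycles₁_iff _).2 fun g h => ?_
  show f (c (g * h)) = A₀.ρ g (f (c h)) + f (c g)
  rw [hz g h, map_add, hf]

/-- `f ∘ c` is a coboundary when `c` is one. -/
theorem sc_comp_mem_B1 (f : A.V →+ A₀.V) (hf : ∀ (g : G) (a : A.V), f (A.ρ g a) = A₀.ρ g (f a))
    {c : G → A.V} (hc : c ∈ B1 A) : (fun g => f (c g)) ∈ B1 A₀ := by
  obtain ⟨a, rfl⟩ := hc
  refine ⟨f a, ?_⟩
  funext g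
  show A₀.ρ g (f a) - f a = f (A.ρ g a - a)
  rw [map_sub, hf]

/-- The map `c ↦ f ∘ c` on smooth cocycles. -/
def scZ1 (f : A.V →+ A₀.V) (hf : ∀ (g : G) (a : A.V), f (A.ρ g a) = A₀.ρ g (f a)) :
    ↥(Z1 𝓤 A) →+ ↥(Z1 𝓤 A₀) where
  toFun c := ⟨fun g => f ((c : G → A.V) g), sc_comp_mem_Z1 𝓤 f hf c.2⟩
  map_zero' := Subtype.ext (funext fun _ => map_zero f)
  map_add' _ _ := Subtype.ext (funext fun _ => map_add f _ _)

@[simp] theorem scZ1_apply (f : A.V →+ A₀.V)
    (hf : ∀ (g : G) (a : A.V), f (A.ρ g a) = A₀.ρ g (f a)) (c : ↥(Z1 𝓤 A)) (g : G) :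
    ((scZ1 𝓤 f hf c : ↥(Z1 𝓤 A₀)) : G → A₀.V) g = f ((c : G → A.V) g) := rfl

/-- The map `[c] ↦ [f ∘ c]` on the smooth `H¹`. -/
noncomputable def scH1 (f : A.V →+ A₀.V) (hf : ∀ (g : G) (a : A.V), f (A.ρ g a) = A₀.ρ g (f a)) :
    H1sm 𝓤 A →+ H1sm 𝓤 A₀ :=
  QuotientAddGroup.lift ((B1 A).comap (Z1 𝓤 A).subtype).toAddSubgroup
    ((H1smπ 𝓤 A₀).toAddMonoidHom.comp (scZ1 𝓤 f hf)) (by
      intro c hc
      rw [AddMonoidHom.mem_ker]
      show H1smπ 𝓤 A₀ (scZ1 𝓤 f hf c) = 0
      rw [Submodule.mkQ_apply, Submodule.Quotient.mk_eq_zero]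
      exact sc_comp_mem_B1 f hf hc)

theorem scH1_mk (f : A.V →+ A₀.V) (hf : ∀ (g : G) (a : A.V), f (A.ρ g a) = A₀.ρ g (f a))
    (c : ↥(Z1 𝓤 A)) : scH1 𝓤 f hf (H1smπ 𝓤 A c) = H1smπ 𝓤 A₀ (scZ1 𝓤 f hf c) := rfl

/-- Restriction commutes with `[c] ↦ [f ∘ c]`. -/
theorem scH1_res {H : Type} [Group H] (r : H →* G) (f : A.V →+ A₀.V)
    (hf : ∀ (g : G) (a : A.V), f (A.ρ g a) = A₀.ρ g (f a)) (x : H1sm 𝓤 A) :
    scH1 (𝓤.comap r) (A := Rep.res r A) (A₀ := Rep.res r A₀) f (fun h a => hf (r h) a)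
        (H1res 𝓤 A r x) = H1res 𝓤 A₀ r (scH1 𝓤 f hf x) := by
  induction x using Submodule.Quotient.induction_on with
  | _ c => rfl

/-- The inverse of an equivariant additive bijection is equivariant. -/
theorem sc_symm_equivariant (f : A.V ≃+ A₀.V)
    (hf : ∀ (g : G) (a : A.V), f (A.ρ g a) = A₀.ρ g (f a)) (g : G) (b : A₀.V) :
    f.symm (A₀.ρ g b) = A.ρ g (f.symm b) := by
  apply f.injective
  rw [hf, AddEquiv.apply_symm_apply, AddEquiv.apply_symm_apply]

/-- The bijection `[c] ↦ [f ∘ c]` on the smooth `H¹`, for an equivariant additive bijection. -/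
noncomputable def scH1Equiv (f : A.V ≃+ A₀.V)
    (hf : ∀ (g : G) (a : A.V), f (A.ρ g a) = A₀.ρ g (f a)) : H1sm 𝓤 A ≃+ H1sm 𝓤 A₀ where
  toFun := scH1 𝓤 f.toAddMonoidHom hf
  invFun := scH1 𝓤 f.symm.toAddMonoidHom (fun g b => sc_symm_equivariant f hf g b)
  left_inv x := by
    induction x using Submodule.Quotient.induction_on with
    | _ c =>
      exact congrArg (H1smπ 𝓤 A)
        (Subtype.ext (funext fun g => f.symm_apply_apply ((c : G → A.V) g)))
  right_inv x := by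
    induction x using Submodule.Quotient.induction_on with
    | _ c =>
      exact congrArg (H1smπ 𝓤 A₀)
        (Subtype.ext (funext fun g => f.apply_symm_apply ((c : G → A₀.V) g)))
  map_add' := map_add _

theorem scH1Equiv_apply (f : A.V ≃+ A₀.V)
    (hf : ∀ (g : G) (a : A.V), f (A.ρ g a) = A₀.ρ g (f a)) (x : H1sm 𝓤 A) :
    scH1Equiv 𝓤 f hf x = scH1 𝓤 f.toAddMonoidHom hf x := rfl

end Generic

section Galois

variable {k k₀ : Type} [Field k] [Field k₀] {M : Rep.{0} k GQ} {M₀ : Rep.{0} k₀ GQ}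

/-- Unramified classes go to unramified classes. -/
theorem sc_mem_unrOutside (S : Finset Nat.Primes) (f : M.V →+ M₀.V)
    (hf : ∀ (g : GQ) (a : M.V), f (M.ρ g a) = M₀.ρ g (f a)) {x : H1sm levelsAll M}
    (hx : x ∈ unrOutside S M) : scH1 levelsAll f hf x ∈ unrOutside S M₀ := by
  obtain ⟨c, hc, rfl⟩ := hx
  exact ⟨scZ1 levelsAll f hf c, IsLC₁.comp (f := (c : GQ → M.V)) hc f, rfl⟩

/-- Localisation commutes with the transport. -/
theorem sc_resLoc (q : Nat.Primes) (f : M.V →+ M₀.V)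
    (hf : ∀ (g : GQ) (a : M.V), f (M.ρ g a) = M₀.ρ g (f a)) (x : H1sm levelsAll M) :
    scH1 (locLevelsAll q) (A := locRep M q) (A₀ := locRep M₀ q) f
        (fun h a => hf (primeLocalToGlobal q h) a) (resLoc M q x)
      = resLoc M₀ q (scH1 levelsAll f hf x) :=
  scH1_res levelsAll (primeLocalToGlobal q) f hf x

variable (f : M.V ≃+ M₀.V) (hf : ∀ (g : GQ) (a : M.V), f (M.ρ g a) = M₀.ρ g (f a))

/-- The transport of the global `H¹`. -/
noncomputable abbrev scGlob : H1sm levelsAll M ≃+ H1sm levelsAll M₀ :=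
  scH1Equiv levelsAll f hf

/-- The transport of the local `H¹` at `q`. -/
noncomputable abbrev scLoc (q : Nat.Primes) : H1loc M q ≃+ H1loc M₀ q :=
  scH1Equiv (locLevelsAll q) (A := locRep M q) (A₀ := locRep M₀ q) f
    (fun h a => hf (primeLocalToGlobal q h) a)

theorem scLoc_resLoc (q : Nat.Primes) (x : H1sm levelsAll M) :
    scLoc f hf q (resLoc M q x) = resLoc M₀ q (scGlob f hf x) :=
  sc_resLoc q f.toAddMonoidHom hf x

theorem scGlob_mem_unrOutside_iff (S : Finset Nat.Primes) (x : H1sm levelsAll M) :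
    scGlob f hf x ∈ unrOutside S M₀ ↔ x ∈ unrOutside S M := by
  constructor
  · intro hx
    have := sc_mem_unrOutside S f.symm.toAddMonoidHom
      (fun g b => sc_symm_equivariant f hf g b) hx
    have h2 : scH1 levelsAll f.symm.toAddMonoidHom
        (fun g b => sc_symm_equivariant f hf g b) (scGlob f hf x) = x :=
      (scGlob f hf).symm_apply_apply x
    rwa [h2] at this
  · exact fun hx => sc_mem_unrOutside S f.toAddMonoidHom hf hx

/-- The Selmer set of `M₀` for the transported local conditions is the image of the Selmer set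
of `M`. -/
theorem sc_selSet (S S₀ : Finset Nat.Primes) (L : ∀ v : Nat.Primes, AddSubgroup (H1loc M v)) :
    selSet S M₀ S₀ (fun v => (L v).map (scLoc f hf v).toAddMonoidHom)
      = scGlob f hf '' selSet S M S₀ L := by
  ext y
  constructor
  · rintro ⟨hy1, hy2⟩
    refine ⟨(scGlob f hf).symm y, ⟨?_, fun v hv => ?_⟩, (scGlob f hf).apply_symm_apply y⟩
    · rw [← scGlob_mem_unrOutside_iff f hf, AddEquiv.apply_symm_apply]
      exact hy1
    · obtain ⟨z, hz, hzy⟩ := hy2 v hv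
      have h1 : scLoc f hf v (resLoc M v ((scGlob f hf).symm y)) = resLoc M₀ v y := by
        rw [scLoc_resLoc, AddEquiv.apply_symm_apply]
      have h2 : scLoc f hf v z = resLoc M₀ v y := hzy
      have h3 : resLoc M v ((scGlob f hf).symm y) = z :=
        (scLoc f hf v).injective (h1.trans h2.symm)
      rw [h3]
      exact hz
  · rintro ⟨x, ⟨hx1, hx2⟩, rfl⟩
    refine ⟨(scGlob_mem_unrOutside_iff f hf S x).2 hx1, fun v hv => ?_⟩
    exact ⟨resLoc M v x, hx2 v hv, scLoc_resLoc f hf v x⟩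

theorem sc_ncard_selSet (S S₀ : Finset Nat.Primes)
    (L : ∀ v : Nat.Primes, AddSubgroup (H1loc M v)) :
    (selSet S M₀ S₀ (fun v => (L v).map (scLoc f hf v).toAddMonoidHom)).ncard
      = (selSet S M S₀ L).ncard := by
  rw [sc_selSet]
  exact Set.ncard_image_of_injective _ (scGlob f hf).injective

theorem sc_finite_selSet (S S₀ : Finset Nat.Primes)
    (L : ∀ v : Nat.Primes, AddSubgroup (H1loc M v))
    (h : (selSet S M₀ S₀ (fun v => (L v).map (scLoc f hf v).toAddMonoidHom)).Finite) :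
    (selSet S M S₀ L).Finite := by
  rw [sc_selSet] at h
  exact h.of_finite_image (scGlob f hf).injective.injOn

/-- Cardinality of a transported local condition. -/
theorem sc_card_map (q : Nat.Primes) (L : AddSubgroup (H1loc M q)) :
    Nat.card ((L.map (scLoc f hf q).toAddMonoidHom : AddSubgroup (H1loc M₀ q))) = Nat.card L :=
  (Nat.card_congr ((scLoc f hf q).addSubgroupMap L).toEquiv).symm

include f hf in
theorem sc_card_H1loc (q : Nat.Primes) : Nat.card (H1loc M₀ q) = Nat.card (H1loc M q) :=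
  (Nat.card_congr (scLoc f hf q).toEquiv).symm

include f hf in
theorem sc_card_H0loc (q : Nat.Primes) : Nat.card (H0loc M₀ q) = Nat.card (H0loc M q) := by
  symm
  refine Nat.card_congr ⟨fun m => ⟨f m.1, fun h => ?_⟩, fun m => ⟨f.symm m.1, fun h => ?_⟩,
    fun m => Subtype.ext (f.symm_apply_apply _), fun m => Subtype.ext (f.apply_symm_apply _)⟩
  · rw [← hf, m.2 h]
  · rw [← sc_symm_equivariant f hf, m.2 h]

include f hf in
theorem sc_card_H0arch : Nat.card (H0arch M₀) = Nat.card (H0arch M) := by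
  symm
  refine Nat.card_congr ⟨fun m => ⟨f m.1, ?_⟩, fun m => ⟨f.symm m.1, ?_⟩,
    fun m => Subtype.ext (f.symm_apply_apply _), fun m => Subtype.ext (f.apply_symm_apply _)⟩
  · show M₀.ρ complexConjugation (f m.1) = f m.1
    rw [← hf, show M.ρ complexConjugation m.1 = m.1 from m.2]
  · show M.ρ complexConjugation (f.symm m.1) = f.symm m.1
    rw [← sc_symm_equivariant f hf, show M₀.ρ complexConjugation m.1 = m.1 from m.2]

include f hf in
theorem sc_H0glob_eq_bot (h : H0glob M = ⊥) : H0glob M₀ = ⊥ := by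
  rw [eq_bot_iff]
  intro m hm
  have h1 : f.symm m ∈ H0glob M := fun g => by
    rw [← sc_symm_equivariant f hf, hm g]
  rw [h, Submodule.mem_bot] at h1
  rw [Submodule.mem_bot]
  have := congrArg f h1
  rwa [AddEquiv.apply_symm_apply, map_zero] at this

theorem sc_isSmooth {G : Type} [Group G] (𝓤 : Levels G) {A : Rep.{0} k G} {A₀ : Rep.{0} k₀ G}
    (f : A.V ≃+ A₀.V) (hf : ∀ (g : G) (a : A.V), f (A.ρ g a) = A₀.ρ g (f a))
    (h : IsSmooth 𝓤 A) : IsSmooth 𝓤 A₀ := by
  intro b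
  obtain ⟨U, hU, hfix⟩ := h (f.symm b)
  refine ⟨U, hU, fun g hg => ?_⟩
  have := congrArg f (hfix g hg)
  rwa [hf, AddEquiv.apply_symm_apply] at this

end Galois

end Fermat.Agent.S56
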