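/-
S56, wall W2, leaf SC (helper71): restriction of scalars of a representation along a finite
separable extension `k / k₀`, and the trace isomorphism of the twisted duals
`(M^*(χ))₀ ≅ (M₀)^*(χ₀)`, `φ ↦ Tr_{k/k₀} ∘ φ`, for `χ = algebraMap ∘ χ₀`.
-/
import Fermat.Agent.S56.W2.SC.Transport
import Fermat.Agent.S56.Local.Walls

set_option autoImplicit false
set_option linter.style.haveILetI false

namespace Fermat.Agent.S56

open Fermat.Agent.F4 ExtCitation

section Res

variable (k₀ : Type) {k G : Type} [Field k₀] [Field k] [Algebra k₀ k] [Group G]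

/-- Restriction of scalars of a representation from `k` to `k₀` (same carrier, same action). -/
noncomputable def scRes (M : Rep.{0} k G) : Rep.{0} k₀ G :=
  letI : Module k₀ M.V := Module.compHom M.V (algebraMap k₀ k)
  Rep.of (X := M.V) (k := k₀)
    { toFun := fun g =>
        { toFun := fun m => M.ρ g m
          map_add' := fun a b => map_add _ a b
          map_smul' := fun a m => (M.ρ g).map_smul (algebraMap k₀ k a) m }
      map_one' := by
        ext m
        show M.ρ 1 m = m
        rw [map_one]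
        rfl
      map_mul' := fun g h => by
        ext m
        show M.ρ (g * h) m = M.ρ g (M.ρ h m)
        rw [map_mul]
        rfl }

/-- The identity, from `M` to its restriction of scalars. -/
noncomputable def scId (M : Rep.{0} k G) : M.V ≃+ (scRes k₀ M).V := AddEquiv.refl M.V

theorem scId_equivariant (M : Rep.{0} k G) (g : G) (a : M.V) :
    scId k₀ M (M.ρ g a) = (scRes k₀ M).ρ g (scId k₀ M a) := rfl

theorem scId_smul (M : Rep.{0} k G) (a : k₀) (m : M.V) :
    scId k₀ M (algebraMap k₀ k a • m) = a • scId k₀ M m := rfl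

theorem scId_symm_smul (M : Rep.{0} k G) (a : k₀) (m : (scRes k₀ M).V) :
    (scId k₀ M).symm (a • m) = algebraMap k₀ k a • (scId k₀ M).symm m := rfl

theorem scId_symm_ρ (M : Rep.{0} k G) (g : G) (m : (scRes k₀ M).V) :
    (scId k₀ M).symm ((scRes k₀ M).ρ g m) = M.ρ g ((scId k₀ M).symm m) := rfl

/-- The trace map `φ ↦ Tr_{k/k₀} ∘ φ` from the `k`-dual of `M` to the `k₀`-dual of `M₀`. -/
noncomputable def scTr (M : Rep.{0} k G) :
    Module.Dual k M.V →+ Module.Dual k₀ (scRes k₀ M).V where
  toFun φ :=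
    { toFun := fun m => Algebra.trace k₀ k (φ ((scId k₀ M).symm m))
      map_add' := fun a b => by rw [map_add, map_add, map_add]
      map_smul' := fun a m => by
        rw [scId_symm_smul, map_smul, smul_eq_mul, ← Algebra.smul_def, map_smul]
        rfl }
  map_zero' := by
    ext m
    show Algebra.trace k₀ k ((0 : Module.Dual k M.V) ((scId k₀ M).symm m)) = 0
    rw [LinearMap.zero_apply, map_zero]
  map_add' := fun φ ψ => by
    ext m
    show Algebra.trace k₀ k ((φ + ψ) ((scId k₀ M).symm m))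
      = Algebra.trace k₀ k (φ ((scId k₀ M).symm m)) + Algebra.trace k₀ k (ψ ((scId k₀ M).symm m))
    rw [LinearMap.add_apply, map_add]

theorem scTr_apply (M : Rep.{0} k G) (φ : Module.Dual k M.V) (m : (scRes k₀ M).V) :
    scTr k₀ M φ m = Algebra.trace k₀ k (φ ((scId k₀ M).symm m)) := rfl

/-- The trace map is equivariant for the twisted dual actions, `χ = algebraMap ∘ χ₀`. -/
theorem scTr_equivariant (M : Rep.{0} k G) (χ : G →* kˣ) (χ₀ : G →* k₀ˣ)
    (hχ : ∀ g, (χ g : k) = algebraMap k₀ k (χ₀ g : k₀)) (g : G) (φ : Module.Dual k M.V) :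
    scTr k₀ M ((M.dualTwist χ).ρ g φ) = ((scRes k₀ M).dualTwist χ₀).ρ g (scTr k₀ M φ) := by
  ext m
  rw [Rep.dualTwist_ρ_apply, Rep.dualTwist_ρ_apply, scTr_apply]
  show Algebra.trace k₀ k ((χ g : k) • φ (M.ρ g⁻¹ ((scId k₀ M).symm m)))
    = (χ₀ g : k₀) • Algebra.trace k₀ k (φ ((scId k₀ M).symm ((scRes k₀ M).ρ g⁻¹ m)))
  rw [hχ, smul_eq_mul, ← Algebra.smul_def, map_smul, scId_symm_ρ]

/-- The trace map is injective (the trace form is nondegenerate). -/
theorem scTr_injective [FiniteDimensional k₀ k] [Algebra.IsSeparable k₀ k] (M : Rep.{0} k G) :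
    Function.Injective (scTr k₀ M) := by
  rw [injective_iff_map_eq_zero]
  intro φ hφ
  ext m
  rw [LinearMap.zero_apply]
  refine (traceForm_nondegenerate k₀ k).1 (φ m) fun c => ?_
  rw [Algebra.traceForm_apply, mul_comm, ← smul_eq_mul, ← map_smul]
  have := congrArg (fun ψ : Module.Dual k₀ (scRes k₀ M).V => ψ (scId k₀ M (c • m))) hφ
  exact this

theorem sc_card_dual (K : Type) [Field K] (V : Type) [AddCommGroup V] [Module K V]
    [Module.Finite K V] : Nat.card (Module.Dual K V) = Nat.card V :=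
  (Nat.card_congr (Module.finBasis K V).toDualEquiv.toEquiv).symm

/-- The trace map is bijective when `M` is finite. -/
theorem scTr_bijective [Finite k] [Algebra.IsSeparable k₀ k] (M : Rep.{0} k G)
    [Module.Finite k M.V] : Function.Bijective (scTr k₀ M) := by
  haveI : Module.Finite k₀ k := Module.Finite.of_finite
  haveI : Finite M.V := Module.finite_of_finite k
  haveI : Finite (scRes k₀ M).V := (inferInstance : Finite M.V)
  haveI : Module.Finite k₀ (scRes k₀ M).V := Module.Finite.of_finite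
  haveI : Finite (Module.Dual k₀ (scRes k₀ M).V) :=
    Finite.of_equiv _ (Module.finBasis k₀ (scRes k₀ M).V).toDualEquiv.toEquiv
  refine (scTr_injective k₀ M).bijective_of_nat_card_le ?_
  rw [sc_card_dual k₀, sc_card_dual k]
  exact le_of_eq (Nat.card_congr (scId k₀ M).toEquiv).symm

/-- The trace isomorphism. -/
noncomputable def scTrEquiv [Finite k] [Algebra.IsSeparable k₀ k] (M : Rep.{0} k G)
    [Module.Finite k M.V] (χ : G →* kˣ) (χ₀ : G →* k₀ˣ) :
    (M.dualTwist χ).V ≃+ ((scRes k₀ M).dualTwist χ₀).V :=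
  AddEquiv.ofBijective (scTr k₀ M) (scTr_bijective k₀ M)

theorem scTrEquiv_equivariant [Finite k] [Algebra.IsSeparable k₀ k] (M : Rep.{0} k G)
    [Module.Finite k M.V] (χ : G →* kˣ) (χ₀ : G →* k₀ˣ)
    (hχ : ∀ g, (χ g : k) = algebraMap k₀ k (χ₀ g : k₀)) (g : G) (φ : (M.dualTwist χ).V) :
    scTrEquiv k₀ M χ χ₀ ((M.dualTwist χ).ρ g φ)
      = ((scRes k₀ M).dualTwist χ₀).ρ g (scTrEquiv k₀ M χ χ₀ φ) :=
  scTr_equivariant k₀ M χ χ₀ hχ g φ

end Res

section Cyclo

variable (p : ℕ) [Fact p.Prime]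

/-- `σ` acts on `μ_p` through the exponent `cycloExp p σ`. -/
theorem sc_apply_root (σ : GQ) (μ : AlgebraicClosure ℚ) (hμ : μ ^ p = 1) :
    σ μ = μ ^ cycloExp p σ := by
  have : NeZero p := ⟨(Fact.out : p.Prime).ne_zero⟩
  have h := modularCyclotomicCharacter.spec (AlgebraicClosure ℚ) (card_rootsOfUnity_eq_self p)
    (σ : AlgebraicClosure ℚ ≃+* AlgebraicClosure ℚ)
    (t := (rootsOfUnity.mkOfPowEq μ hμ : (AlgebraicClosure ℚ)ˣ)) (rootsOfUnity.mkOfPowEq μ hμ).2
  simpa [cycloExp] using h

/-- The Prelude's `cycloChar p` is the mod `p` cyclotomic character. -/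
theorem sc_isCycloChar_cycloChar : IsCycloChar p (cycloChar p) := by
  intro σ a ha
  have : NeZero p := ⟨(Fact.out : p.Prime).ne_zero⟩
  symm
  refine modularCyclotomicCharacter.unique (AlgebraicClosure ℚ) (card_rootsOfUnity_eq_self p)
    (σ : AlgebraicClosure ℚ ≃+* AlgebraicClosure ℚ) (c := (a : ZMod p)) fun t ht => ?_
  have ht' : (t : AlgebraicClosure ℚ) ^ p = 1 := by
    have := (mem_rootsOfUnity p t).mp ht
    rw [← Units.val_pow_eq_pow_val, this, Units.val_one]
  rw [ZMod.val_natCast, ← pow_eq_pow_mod a ht']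
  exact ha t ht'

/-- A mod `p` cyclotomic character with values in `k` is `algebraMap ∘ cycloChar p`. -/
theorem sc_coe_chi {k : Type} [Field k] [Algebra (ZMod p) k] {χ : GQ →* kˣ}
    (hχ : IsCycloChar p χ) (σ : GQ) :
    (χ σ : k) = algebraMap (ZMod p) k (cycloChar p σ : ZMod p) := by
  rw [hχ σ (cycloExp p σ) (sc_apply_root p σ), coe_cycloChar, map_natCast]

end Cyclo

end Fermat.Agent.S56
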